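import Fermat.Agent.S15.H782.NodeExists

/-!
# S15, node GEO, piece UVAL (helper782): final statements in the Prelude's vocabulary

`W : WeierstrassCurve ℤ`, `Q` a point of odd prime order `p` over `ℚ̄`, `A` a place of `ℚ̄` over a
prime `ℓ ≠ p` of multiplicative reduction (`ℓ ∣ Δ`, `ℓ ∤ c₄`; `ℓ = 2, 3` allowed):

* `val_unitU_pow_of_not_inZeroComponentAt` : `Q ∉ E⁰`  ⟹  `v_A(U) ^ p = v_A(Δ) ^ (p - 1)`;
* `val_unitU_lt_one_of_not_inZeroComponentAt` : `Q ∉ E⁰`  ⟹  `v_A(U) < 1`   (`ord_A U > 0`);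
* `one_lt_val_unitU_of_inZeroComponentAt`     : `Q ∈ E⁰`  ⟹  `1 < v_A(U)`   (`ord_A U < 0`).

So the sign of `ord_A U(W, Q)` detects the component of `Q`; no Newton polygon of the modular
equation is needed.
-/

set_option autoImplicit false

namespace Fermat.Agent.S15.H782

open WeierstrassCurve WeierstrassCurve.Affine
open Fermat.Agent.S05.SameRed (IntegralCoeffs InKer)
open Fermat.Agent.Lib.Red.H290
open Fermat.Agent.S15.H242
open Fermat.Agent.S13.H365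

section bridge

variable {K : Type*} [Field K] [DecidableEq K] {κ : Type*} [Field κ] [DecidableEq κ]
variable {A : ValuationSubring K} {φ : A →+* κ} {W : Affine K} {Wκ : Affine κ}

omit [DecidableEq κ] in
/-- `E⁰` of a node model (points away from the node) is contained in the locus of nonsingular
reduction. -/
theorem inE0_of_nodeModel_inE0 (h : IsRedOf A φ W Wκ) (hφ : KerMax A φ)
    (M : NodeModel A.valuation W) (he : A.valuation M.e ≤ 1) {P : W.Point} (hP : M.InE0 P) :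
    InE0 A φ Wκ P := by
  rcases P with _ | ⟨x, y, hxy⟩
  · exact inE0_zero
  · intro hx
    have hy : y ∈ A := y_mem_of_x_mem h hxy.1 hx
    have hxv : A.valuation x ≤ 1 := val_le_of_mem hx
    have hyv : A.valuation y ≤ 1 := val_le_of_mem hy
    have hξ : A.valuation (x - M.e) = 1 :=
      le_antisymm (Valuation.map_sub_le _ hxv he) hP
    have heq := rd_equation h hx hy hxy.1
    obtain ⟨hmemY, hrdY⟩ := rd_psiTwoExpr h hx hy
    obtain ⟨hmemX, hrdX⟩ := rd_slopeNum h hx hy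
    rw [Affine.nonsingular_iff']
    refine ⟨heq, ?_⟩
    rcases M.nonsingular_red h.integralCoeffs hxy.1 hxv hyv hξ with hX | hY
    · left
      have hX' : A.valuation (3 * x ^ 2 + 2 * W.a₂ * x + W.a₄ - W.a₁ * y) = 1 := by
        rw [← Valuation.map_neg, neg_sub]; exact hX
      have := (rd_ne_zero_iff hφ hmemX).mpr hX'
      rw [hrdX] at this
      intro h0
      exact this (by linear_combination -h0)
    · right
      have := (rd_ne_zero_iff hφ hmemY).mpr hY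
      rwa [hrdY] at this

end bridge

section final

variable {W : WeierstrassCurve ℤ} {A : ValuationSubring (AlgebraicClosure ℚ)}

lemma Δ_bar_eq (W : WeierstrassCurve ℤ) :
    ((W.map (Int.castRingHom ℚ))⁄(AlgebraicClosure ℚ)).Δ = ((W.Δ : ℤ) : AlgebraicClosure ℚ) := by
  show ((W.map (Int.castRingHom ℚ)).map (algebraMap ℚ (AlgebraicClosure ℚ))).Δ = _
  rw [WeierstrassCurve.map_Δ, WeierstrassCurve.map_Δ]
  simp

lemma c₄_bar_eq (W : WeierstrassCurve ℤ) :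
    ((W.map (Int.castRingHom ℚ))⁄(AlgebraicClosure ℚ)).c₄ = ((W.c₄ : ℤ) : AlgebraicClosure ℚ) := by
  show ((W.map (Int.castRingHom ℚ)).map (algebraMap ℚ (AlgebraicClosure ℚ))).c₄ = _
  rw [WeierstrassCurve.map_c₄, WeierstrassCurve.map_c₄]
  simp

/-- A node model of `W` at a place over a multiplicative prime. -/
theorem exists_nodeModel_int (hΔ : W.Δ ≠ 0) {ℓ : ℕ} (hℓ : ℓ.Prime) (hℓΔ : (ℓ : ℤ) ∣ W.Δ)
    (hℓc₄ : ¬ (ℓ : ℤ) ∣ W.c₄) (hA : A.LiesOverPrime ℓ) :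
    ∃ M : NodeModel A.valuation ((W.map (Int.castRingHom ℚ))⁄(AlgebraicClosure ℚ)),
      A.valuation M.e ≤ 1 := by
  refine exists_nodeModel two_ne_zero
    (isRedOf_int A W (IsLocalRing.residue A)).integralCoeffs ?_ ?_ ?_
  · rw [c₄_bar_eq]; exact val_intCast_eq_one A hA hℓ hℓc₄
  · rw [Δ_bar_eq]; exact val_Δ_lt_one hℓΔ hA
  · rw [Δ_bar_eq]; exact Int.cast_ne_zero.mpr hΔ

/-- **UVAL (b)-EXACT.**  `Q ∉ E⁰` at a place over a multiplicative prime `ℓ ≠ p`: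
`v_A(U(W,Q)) ^ p = v_A(Δ) ^ (p - 1)`, i.e. `ord_A U = (p - 1)/p · ord_A Δ`. -/
theorem val_unitU_pow_of_not_inZeroComponentAt {p : ℕ} (hp : p.Prime) (hp2 : p ≠ 2)
    (hΔ : W.Δ ≠ 0) {Q : PtsBar W} (hord : addOrderOf Q = p) {ℓ : ℕ} (hℓ : ℓ.Prime)
    (hℓp : ℓ ≠ p) (hℓΔ : (ℓ : ℤ) ∣ W.Δ) (hℓc₄ : ¬ (ℓ : ℤ) ∣ W.c₄) (hA : A.LiesOverPrime ℓ)
    (hQ0 : ¬ W.InZeroComponentAt A Q) :
    A.valuation (unitU W p Q) ^ p = A.valuation ((W.Δ : ℤ) : AlgebraicClosure ℚ) ^ (p - 1) := by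
  obtain ⟨m, rfl⟩ : ∃ m, p = 2 * m + 1 := by
    rcases hp.eq_two_or_odd' with h | h
    · exact absurd h hp2
    · exact h
  obtain ⟨M, he⟩ := exists_nodeModel_int hΔ hℓ hℓΔ hℓc₄ hA
  have hred := isRedOf_int A W (IsLocalRing.residue A)
  have hQ : ¬ M.InE0 Q := fun h =>
    hQ0 (inZeroComponentAt_of_inE0 W A (inE0_of_nodeModel_inE0 hred (kerMax_residue A) M he h))
  have hprod := val_psiProd_pow_of_not_inE0 M hp hord hQ
  have hvΔ : A.valuation ((W.Δ : ℤ) : AlgebraicClosure ℚ) = A.valuation M.a ^ 2 := by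
    rw [← Δ_bar_eq]; exact nodeModel_val_Δ M
  have hv : A.valuation (((2 * m + 1 : ℕ)) : AlgebraicClosure ℚ) = 1 :=
    val_natCast_eq_one A hA hℓ hp hℓp
  have hΔ0 : A.valuation ((W.Δ : ℤ) : AlgebraicClosure ℚ) ≠ 0 :=
    (Valuation.ne_zero_iff _).mpr (Int.cast_ne_zero.mpr hΔ)
  have hmul : A.valuation (unitU W (2 * m + 1) Q) *
      A.valuation ((W.Δ : ℤ) : AlgebraicClosure ℚ) ^ (2 * m + 1 - 1) =
      A.valuation (psiProd _ Q (2 * m + 1)) ^ 4 := by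
    rw [← map_pow, ← map_mul, unitU_mul_Δ_pow W hΔ, map_mul, map_pow, map_pow, hv, one_pow,
      one_mul]
  have h1 : 2 * m + 1 - 1 = 2 * m := by omega
  rw [h1] at hmul ⊢
  have key : A.valuation (unitU W (2 * m + 1) Q) ^ (2 * m + 1) *
      A.valuation ((W.Δ : ℤ) : AlgebraicClosure ℚ) ^ (2 * m * (2 * m + 1)) =
      A.valuation ((W.Δ : ℤ) : AlgebraicClosure ℚ) ^ (2 * m) *
        A.valuation ((W.Δ : ℤ) : AlgebraicClosure ℚ) ^ (2 * m * (2 * m + 1)) := by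
    rw [pow_mul, ← mul_pow, hmul, ← pow_mul, mul_comm 4, pow_mul, hprod, hvΔ, ← pow_mul,
      ← pow_mul, ← pow_mul, ← pow_add]
    congr 1
    ring
  exact mul_right_cancel₀ (pow_ne_zero _ hΔ0) key

/-- **UVAL (b), sign.**  `Q ∉ E⁰` at a multiplicative place `A ∣ ℓ ≠ p` ⟹ `v_A(U) < 1`. -/
theorem val_unitU_lt_one_of_not_inZeroComponentAt {p : ℕ} (hp : p.Prime) (hp2 : p ≠ 2)
    (hΔ : W.Δ ≠ 0) {Q : PtsBar W} (hord : addOrderOf Q = p) {ℓ : ℕ} (hℓ : ℓ.Prime)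
    (hℓp : ℓ ≠ p) (hℓΔ : (ℓ : ℤ) ∣ W.Δ) (hℓc₄ : ¬ (ℓ : ℤ) ∣ W.c₄) (hA : A.LiesOverPrime ℓ)
    (hQ0 : ¬ W.InZeroComponentAt A Q) : A.valuation (unitU W p Q) < 1 := by
  have h := val_unitU_pow_of_not_inZeroComponentAt hp hp2 hΔ hord hℓ hℓp hℓΔ hℓc₄ hA hQ0
  have hlt : A.valuation ((W.Δ : ℤ) : AlgebraicClosure ℚ) ^ (p - 1) < 1 :=
    pow_lt_one₀ zero_le (val_Δ_lt_one hℓΔ hA) (by have := hp.two_le; omega)
  rw [← h] at hlt
  by_contra hcon
  exact absurd hlt (not_lt.mpr (one_le_pow₀ (not_lt.mp hcon)))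

/-- **UVAL (a), sign.**  `Q ∈ E⁰` at a multiplicative place `A ∣ ℓ ≠ p` ⟹ `1 < v_A(U)`. -/
theorem one_lt_val_unitU_of_inZeroComponentAt {p : ℕ} (hp : p.Prime) (hp2 : p ≠ 2)
    (hΔ : W.Δ ≠ 0) {Q : PtsBar W} (hord : addOrderOf Q = p) {ℓ : ℕ} (hℓ : ℓ.Prime)
    (hℓp : ℓ ≠ p) (hℓΔ : (ℓ : ℤ) ∣ W.Δ) (hA : A.LiesOverPrime ℓ)
    (hQ0 : W.InZeroComponentAt A Q) : 1 < A.valuation (unitU W p Q) := by
  have h := val_unitU_of_inZeroComponentAt hp hp2 hΔ hord hℓ hℓp hA hQ0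
  have hlt : A.valuation ((W.Δ : ℤ) : AlgebraicClosure ℚ) ^ (p - 1) < 1 :=
    pow_lt_one₀ zero_le (val_Δ_lt_one hℓΔ hA) (by have := hp.two_le; omega)
  by_contra hcon
  have hle : A.valuation (unitU W p Q) ≤ 1 := not_lt.mp hcon
  have : A.valuation (unitU W p Q) *
      A.valuation ((W.Δ : ℤ) : AlgebraicClosure ℚ) ^ (p - 1) < 1 :=
    lt_of_le_of_lt (mul_le_of_le_one_left zero_le hle) hlt
  rw [h] at this
  exact lt_irrefl _ this

end final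

end Fermat.Agent.S15.H782
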