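import Fermat.Agent.S15.H782.UValExact

/-!
# S15, piece UVAL (helper782): existence of a `NodeModel` at a multiplicative place

`K` algebraically closed of characteristic `≠ 2` with a valuation `v`, `W` a Weierstrass curve with
`v`-integral coefficients, `v c₄ = 1`, `v Δ < 1`, `Δ ≠ 0` (multiplicative reduction; ANY residue
characteristic, including `2` and `3`).  Then there is a `2`-torsion point `(e, f)` of `W`
reducing to the node, i.e. a `Fermat.Agent.S13.H365.NodeModel v W` with `v e ≤ 1`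
(`exists_nodeModel`), and `v Δ = v(a) ^ 2` (`NodeModel.val_Δ`).

The root `e` of the `2`-torsion cubic `4x³ + b₂x² + 2b₄x + b₆ = 4 ∏ (x - eᵢ)` is found by
valuation arguments: with `A(e) = (e - e')(e - e'')`,
* `∏ A(eᵢ) = -Δ/16` (residue characteristic `≠ 2`: all roots are integral);
* `Δ = A(e)² (c₄ - 16 A(e))` (residue characteristic `2`: there is an integral root).
-/

set_option autoImplicit false

namespace Fermat.Agent.S15.H782

open WeierstrassCurve WeierstrassCurve.Affine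
open Fermat.Agent.S05.SameRed (IntegralCoeffs)
open Fermat.Agent.S13.H365

section identities

variable {K : Type*} [Field K] {W : Affine K}

/-- `Δ` and `c₄` in terms of the data of a `2`-torsion point `(e, f)` and the tangent slopes. -/
lemma Δ_c₄_of_nodeData {e f γ₁ γ₂ a : K}
    (h2tors : 2 * f + W.a₁ * e + W.a₃ = 0)
    (hon : f ^ 2 + W.a₁ * e * f + W.a₃ * f = e ^ 3 + W.a₂ * e ^ 2 + W.a₄ * e + W.a₆)
    (hsum : γ₁ + γ₂ = -W.a₁) (hprod : γ₁ * γ₂ = -(W.a₂ + 3 * e))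
    (ha_def : a = 3 * e ^ 2 + 2 * W.a₂ * e + W.a₄ - W.a₁ * f) :
    W.Δ = a ^ 2 * ((γ₁ - γ₂) ^ 4 - 64 * a) ∧ W.c₄ = (γ₁ - γ₂) ^ 4 - 48 * a := by
  have e₁ : W.a₁ = -(γ₁ + γ₂) := by linear_combination hsum
  have e₂ : W.a₂ = -(γ₁ * γ₂) - 3 * e := by linear_combination hprod
  have e₃ : W.a₃ = -2 * f + (γ₁ + γ₂) * e := by linear_combination h2tors - e * hsum
  have e₄ : W.a₄ = a + 3 * e ^ 2 + 2 * (γ₁ * γ₂) * e - (γ₁ + γ₂) * f := by
    linear_combination -ha_def - 2 * e * hprod + f * hsum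
  have e₆ : W.a₆ = f ^ 2 + W.a₁ * e * f + W.a₃ * f - (e ^ 3 + W.a₂ * e ^ 2 + W.a₄ * e) := by
    linear_combination -hon
  rw [e₄, e₃, e₂, e₁] at e₆
  constructor
  · simp only [WeierstrassCurve.Δ, WeierstrassCurve.b₂, WeierstrassCurve.b₄,
      WeierstrassCurve.b₆, WeierstrassCurve.b₈]
    rw [e₆, e₄, e₃, e₂, e₁]
    ring
  · simp only [WeierstrassCurve.c₄, WeierstrassCurve.b₂, WeierstrassCurve.b₄]
    rw [e₄, e₃, e₂, e₁]
    ring

/-- The smoothing parameter attached to a root `e` of the `2`-torsion cubic: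
`a = 3e² + 2a₂e + a₄ - a₁ f` with `f = -(a₁e + a₃)/2`. -/
noncomputable def nodeA (W : Affine K) (e : K) : K :=
  3 * e ^ 2 + 2 * W.a₂ * e + W.a₄ - W.a₁ * (-(W.a₁ * e + W.a₃) / 2)

lemma two_mul_nodeA (h2 : (2 : K) ≠ 0) (e : K) :
    2 * nodeA W e = 6 * e ^ 2 + W.b₂ * e + W.b₄ := by
  simp only [nodeA, WeierstrassCurve.b₂, WeierstrassCurve.b₄]
  field_simp
  ring

/-- Vieta: `A(e₁) = (e₁ - e₂)(e₁ - e₃)`. -/
lemma nodeA_eq_of_vieta (h2 : (2 : K) ≠ 0) {e₁ e₂ e₃ : K}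
    (hb₂ : W.b₂ = 4 * -(e₁ + e₂ + e₃)) (hb₄ : 2 * W.b₄ = 4 * (e₁ * e₂ + e₁ * e₃ + e₂ * e₃)) :
    nodeA W e₁ = (e₁ - e₂) * (e₁ - e₃) := by
  have h := two_mul_nodeA (W := W) h2 e₁
  have h4 : (4 : K) ≠ 0 := by
    have : (4 : K) = 2 * 2 := by norm_num
    rw [this]; exact mul_ne_zero h2 h2
  apply mul_left_cancel₀ h4
  linear_combination 2 * h + 2 * e₁ * hb₂ + hb₄

/-- Vieta: a root of the factored cubic is a root of the `2`-torsion cubic. -/
lemma twoTorsion_root_of_vieta {e₁ e₂ e₃ : K}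
    (hb₂ : W.b₂ = 4 * -(e₁ + e₂ + e₃)) (hb₄ : 2 * W.b₄ = 4 * (e₁ * e₂ + e₁ * e₃ + e₂ * e₃))
    (hb₆ : W.b₆ = 4 * -(e₁ * e₂ * e₃)) :
    4 * e₁ ^ 3 + W.b₂ * e₁ ^ 2 + 2 * W.b₄ * e₁ + W.b₆ = 0 := by
  rw [hb₂, hb₄, hb₆]; ring

/-- Over an algebraically closed field the `2`-torsion cubic splits: Vieta's relations. -/
lemma exists_twoTorsion_roots [IsAlgClosed K] (h2 : (2 : K) ≠ 0) (W : Affine K) :
    ∃ e₁ e₂ e₃ : K, W.b₂ = 4 * -(e₁ + e₂ + e₃) ∧
      2 * W.b₄ = 4 * (e₁ * e₂ + e₁ * e₃ + e₂ * e₃) ∧ W.b₆ = 4 * -(e₁ * e₂ * e₃) ∧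
      W.Δ = 16 * ((e₁ - e₂) * (e₁ - e₃) * (e₂ - e₃)) ^ 2 := by
  have h4 : (4 : K) ≠ 0 := by
    have : (4 : K) = 2 * 2 := by norm_num
    rw [this]; exact mul_ne_zero h2 h2
  have ha : W.twoTorsionPolynomial.a ≠ 0 := h4
  have hsplit : (W.twoTorsionPolynomial.toPoly.map (RingHom.id K)).Splits :=
    IsAlgClosed.splits _
  obtain ⟨x, y, z, h3⟩ := (Cubic.splits_iff_roots_eq_three ha).mp hsplit
  have hb := Cubic.b_eq_three_roots ha h3
  have hc := Cubic.c_eq_three_roots ha h3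
  have hd := Cubic.d_eq_three_roots ha h3
  have hD := Cubic.discr_eq_prod_three_roots ha h3
  simp only [RingHom.id_apply, twoTorsionPolynomial_discr] at hb hc hd hD
  simp only [twoTorsionPolynomial] at hb hc hd hD
  refine ⟨x, y, z, hb, hc, hd, ?_⟩
  have h16 : (16 : K) ≠ 0 := by
    have : (16 : K) = 4 * 4 := by norm_num
    rw [this]; exact mul_ne_zero h4 h4
  apply mul_left_cancel₀ h16
  rw [hD]; ring

end identities

section valuation

variable {K : Type*} [Field K] {Γ₀ : Type*} [LinearOrderedCommGroupWithZero Γ₀]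
  {v : Valuation K Γ₀} {W : Affine K}

lemma val_natCast_le_one' (v : Valuation K Γ₀) (n : ℕ) : v (n : K) ≤ 1 := by
  induction n with
  | zero => simp
  | succ n ih =>
    rw [Nat.cast_succ]
    exact Valuation.map_add_le _ ih (le_of_eq (map_one v))

lemma val_ofNat_le_one (v : Valuation K Γ₀) (n : ℕ) [n.AtLeastTwo] :
    v (OfNat.ofNat n : K) ≤ 1 := by
  rw [← Nat.cast_ofNat]; exact val_natCast_le_one' v n

lemma val_mul_le_one' {x y : K} (hx : v x ≤ 1) (hy : v y ≤ 1) : v (x * y) ≤ 1 := by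
  rw [map_mul]; exact mul_le_one' hx hy

lemma val_b₂_le_one (hW : IntegralCoeffs W v) : v W.b₂ ≤ 1 := by
  simp only [WeierstrassCurve.b₂]
  exact Valuation.map_add_le _ (by rw [map_pow]; exact pow_le_one' hW.a₁ 2)
    (val_mul_le_one' (val_ofNat_le_one v 4) hW.a₂)

lemma val_b₄_le_one (hW : IntegralCoeffs W v) : v W.b₄ ≤ 1 := by
  simp only [WeierstrassCurve.b₄]
  exact Valuation.map_add_le _ (val_mul_le_one' (val_ofNat_le_one v 2) hW.a₄)
    (val_mul_le_one' hW.a₁ hW.a₃)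

lemma val_b₆_le_one (hW : IntegralCoeffs W v) : v W.b₆ ≤ 1 := by
  simp only [WeierstrassCurve.b₆]
  exact Valuation.map_add_le _ (by rw [map_pow]; exact pow_le_one' hW.a₃ 2)
    (val_mul_le_one' (val_ofNat_le_one v 4) hW.a₆)

/-- A non-integral root `e` of the `2`-torsion cubic has `v 4 * v e = v b₂`. -/
lemma val_four_mul_of_root_of_one_lt (hW : IntegralCoeffs W v) {e : K}
    (hroot : 4 * e ^ 3 + W.b₂ * e ^ 2 + 2 * W.b₄ * e + W.b₆ = 0) (he : 1 < v e) :
    v (4 : K) * v e ≤ 1 ∧ (v W.b₂ = 1 → v (4 : K) * v e = 1) := by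
  have hpos : 0 < v e := lt_trans zero_lt_one he
  have he2 : 0 < v e ^ 2 := pow_pos hpos 2
  have hlow : v (2 * W.b₄ * e + W.b₆) < v e ^ 2 := by
    apply Valuation.map_add_lt
    · rw [map_mul]
      calc v (2 * W.b₄) * v e ≤ 1 * v e :=
            mul_le_mul_left (val_mul_le_one' (val_ofNat_le_one v 2) (val_b₄_le_one hW)) _
        _ = v e := one_mul _
        _ = v e * 1 := (mul_one _).symm
        _ < v e * v e := mul_lt_mul_of_pos_left he hpos
        _ = v e ^ 2 := (pow_two _).symm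
    · calc v W.b₆ ≤ 1 := val_b₆_le_one hW
        _ < v e ^ 2 := one_lt_pow₀ he two_ne_zero
  have hmid : v (W.b₂ * e ^ 2 + (2 * W.b₄ * e + W.b₆)) ≤ v e ^ 2 := by
    apply Valuation.map_add_le _ _ hlow.le
    rw [map_mul, map_pow]
    calc v W.b₂ * v e ^ 2 ≤ 1 * v e ^ 2 := mul_le_mul_left (val_b₂_le_one hW) _
      _ = v e ^ 2 := one_mul _
  have h4e : 4 * e ^ 3 = -(W.b₂ * e ^ 2 + (2 * W.b₄ * e + W.b₆)) := by
    linear_combination hroot
  have hval : v (4 : K) * v e * v e ^ 2 = v (W.b₂ * e ^ 2 + (2 * W.b₄ * e + W.b₆)) := by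
    rw [← Valuation.map_neg v (W.b₂ * e ^ 2 + _), ← h4e, map_mul, map_pow, mul_assoc,
      ← pow_succ']
  constructor
  · have : v (4 : K) * v e * v e ^ 2 ≤ 1 * v e ^ 2 := by rw [hval, one_mul]; exact hmid
    exact le_of_mul_le_mul_right this he2
  · intro hb₂
    have heq : v (W.b₂ * e ^ 2 + (2 * W.b₄ * e + W.b₆)) = v e ^ 2 := by
      rw [Valuation.map_add_eq_of_lt_left _ (by rw [map_mul, map_pow, hb₂, one_mul]; exact hlow),
        map_mul, map_pow, hb₂, one_mul]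
    rw [heq] at hval
    have : v (4 : K) * v e * v e ^ 2 = 1 * v e ^ 2 := by rw [hval, one_mul]
    exact mul_right_cancel₀ he2.ne' this

/-- If `v 4 = 1`, every root of the `2`-torsion cubic is integral. -/
lemma val_root_le_one (hW : IntegralCoeffs W v) (h4 : v (4 : K) = 1) {e : K}
    (hroot : 4 * e ^ 3 + W.b₂ * e ^ 2 + 2 * W.b₄ * e + W.b₆ = 0) : v e ≤ 1 := by
  by_contra hcon
  rw [not_le] at hcon
  have := (val_four_mul_of_root_of_one_lt hW hroot hcon).1
  rw [h4, one_mul] at this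
  exact absurd hcon (not_lt.mpr this)

/-- `f = -(a₁e + a₃)/2` is integral at an integral root `e` of the `2`-torsion cubic. -/
lemma val_nodeF_le_one (h2 : (2 : K) ≠ 0) (hW : IntegralCoeffs W v) {e : K}
    (hroot : 4 * e ^ 3 + W.b₂ * e ^ 2 + 2 * W.b₄ * e + W.b₆ = 0) (he : v e ≤ 1) :
    v (-(W.a₁ * e + W.a₃) / 2) ≤ 1 := by
  have h2v : v (2 : K) ≠ 0 := (Valuation.ne_zero_iff v).mpr h2
  have hid : (W.a₁ * e + W.a₃) ^ 2 = -(4 * (e ^ 3 + W.a₂ * e ^ 2 + W.a₄ * e + W.a₆)) := by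
    simp only [WeierstrassCurve.b₂, WeierstrassCurve.b₄, WeierstrassCurve.b₆] at hroot
    linear_combination hroot
  have hcub : v (e ^ 3 + W.a₂ * e ^ 2 + W.a₄ * e + W.a₆) ≤ 1 := by
    refine Valuation.map_add_le _ (Valuation.map_add_le _ (Valuation.map_add_le _ ?_ ?_) ?_) hW.a₆
    · rw [map_pow]; exact pow_le_one' he 3
    · exact val_mul_le_one' hW.a₂ (by rw [map_pow]; exact pow_le_one' he 2)
    · exact val_mul_le_one' hW.a₄ he
  have hsq : v (W.a₁ * e + W.a₃) ^ 2 ≤ v (2 : K) ^ 2 := by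
    rw [← map_pow, hid, Valuation.map_neg, map_mul]
    have : (4 : K) = 2 ^ 2 := by norm_num
    rw [this, map_pow]
    calc v (2 : K) ^ 2 * v (e ^ 3 + W.a₂ * e ^ 2 + W.a₄ * e + W.a₆) ≤ v (2 : K) ^ 2 * 1 :=
          mul_le_mul_right hcub _
      _ = v (2 : K) ^ 2 := mul_one _
  have hle : v (W.a₁ * e + W.a₃) ≤ v (2 : K) :=
    (pow_le_pow_iff_left₀ zero_le zero_le two_ne_zero).mp hsq
  rw [map_div₀, Valuation.map_neg]
  exact (div_le_one₀ (zero_lt_iff.mpr h2v)).mpr hle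

lemma val_nodeA_le_one (h2 : (2 : K) ≠ 0) (hW : IntegralCoeffs W v) {e : K}
    (hroot : 4 * e ^ 3 + W.b₂ * e ^ 2 + 2 * W.b₄ * e + W.b₆ = 0) (he : v e ≤ 1) :
    v (nodeA W e) ≤ 1 := by
  have hf := val_nodeF_le_one h2 hW hroot he
  simp only [nodeA]
  rw [sub_eq_add_neg]
  refine Valuation.map_add_le _ (Valuation.map_add_le _ (Valuation.map_add_le _ ?_ ?_) hW.a₄) ?_
  · exact val_mul_le_one' (val_ofNat_le_one v 3) (by rw [map_pow]; exact pow_le_one' he 2)
  · exact val_mul_le_one' (val_mul_le_one' (val_ofNat_le_one v 2) hW.a₂) he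
  · rw [Valuation.map_neg]; exact val_mul_le_one' hW.a₁ hf

/-- **The root near the node.**  There is a root `e` of the `2`-torsion cubic which is integral
and whose smoothing parameter `A(e)` is a non-unit. -/
theorem exists_root_near_node [IsAlgClosed K] (h2 : (2 : K) ≠ 0) (hW : IntegralCoeffs W v)
    (hc₄ : v W.c₄ = 1) (hΔ : v W.Δ < 1) :
    ∃ e : K, 4 * e ^ 3 + W.b₂ * e ^ 2 + 2 * W.b₄ * e + W.b₆ = 0 ∧ v e ≤ 1 ∧
      v (nodeA W e) < 1 := by
  obtain ⟨e₁, e₂, e₃, hb₂, hb₄, hb₆, hD⟩ := exists_twoTorsion_roots h2 W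
  -- the three roots, with the three cyclic forms of Vieta's relations
  have r₁ := twoTorsion_root_of_vieta hb₂ hb₄ hb₆
  have hb₂' : W.b₂ = 4 * -(e₂ + e₁ + e₃) := by rw [hb₂]; ring
  have hb₄' : 2 * W.b₄ = 4 * (e₂ * e₁ + e₂ * e₃ + e₁ * e₃) := by rw [hb₄]; ring
  have hb₆' : W.b₆ = 4 * -(e₂ * e₁ * e₃) := by rw [hb₆]; ring
  have hb₂'' : W.b₂ = 4 * -(e₃ + e₁ + e₂) := by rw [hb₂]; ring
  have hb₄'' : 2 * W.b₄ = 4 * (e₃ * e₁ + e₃ * e₂ + e₁ * e₂) := by rw [hb₄]; ring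
  have hb₆'' : W.b₆ = 4 * -(e₃ * e₁ * e₂) := by rw [hb₆]; ring
  have r₂ := twoTorsion_root_of_vieta hb₂' hb₄' hb₆'
  have r₃ := twoTorsion_root_of_vieta hb₂'' hb₄'' hb₆''
  have A₁ := nodeA_eq_of_vieta h2 hb₂ hb₄
  have A₂ := nodeA_eq_of_vieta h2 hb₂' hb₄'
  have A₃ := nodeA_eq_of_vieta h2 hb₂'' hb₄''
  have h4 : (4 : K) = 2 ^ 2 := by norm_num
  have h16 : (16 : K) = 2 ^ 4 := by norm_num
  rcases (val_ofNat_le_one v 2).lt_or_eq with h2v | h2v
  · -- residue characteristic `2`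
    have hv4 : v (4 : K) < 1 := by
      rw [h4, map_pow]; exact pow_lt_one₀ zero_le h2v two_ne_zero
    have hv16 : v (16 : K) < 1 := by
      rw [h16, map_pow]; exact pow_lt_one₀ zero_le h2v (by norm_num)
    have hvb₂ : v W.b₂ = 1 := by
      have hc : W.c₄ = W.b₂ ^ 2 + -(24 * W.b₄) := by simp only [WeierstrassCurve.c₄]; ring
      have h24 : v (-(24 * W.b₄)) < 1 := by
        rw [Valuation.map_neg, map_mul]
        have : (24 : K) = 2 * 12 := by norm_num
        rw [this, map_mul]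
        calc v (2 : K) * v (12 : K) * v W.b₄ ≤ v (2 : K) * 1 * 1 :=
              mul_le_mul' (mul_le_mul_right (val_ofNat_le_one v 12) _) (val_b₄_le_one hW)
          _ = v (2 : K) := by rw [mul_one, mul_one]
          _ < 1 := h2v
      have hsq : v (W.b₂ ^ 2) = 1 := by
        by_contra hne
        have hlt : v (W.b₂ ^ 2) < 1 :=
          lt_of_le_of_ne (by rw [map_pow]; exact pow_le_one' (val_b₂_le_one hW) 2) hne
        have : v W.c₄ < 1 := by rw [hc]; exact Valuation.map_add_lt _ hlt h24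
        rw [hc₄] at this
        exact lt_irrefl _ this
      rw [map_pow] at hsq
      exact (pow_eq_one_iff_of_nonneg zero_le two_ne_zero).mp hsq
    -- an integral root exists
    have hex : ∃ e : K, 4 * e ^ 3 + W.b₂ * e ^ 2 + 2 * W.b₄ * e + W.b₆ = 0 ∧ v e ≤ 1 ∧
        ∃ e' e'' : K, nodeA W e = (e - e') * (e - e'') ∧
          W.Δ = 16 * ((e - e') * (e - e'') * (e' - e'')) ^ 2 ∧
          W.b₂ = 4 * -(e + e' + e'') ∧ 2 * W.b₄ = 4 * (e * e' + e * e'' + e' * e'') := by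
      by_contra hcon
      push Not at hcon
      have n₁ : 1 < v e₁ := by
        by_contra h
        exact hcon e₁ r₁ (not_lt.mp h) e₂ e₃ A₁ hD hb₂ hb₄
      have n₂ : 1 < v e₂ := by
        by_contra h
        exact hcon e₂ r₂ (not_lt.mp h) e₁ e₃ A₂ (by rw [hD]; ring) hb₂' hb₄'
      have n₃ : 1 < v e₃ := by
        by_contra h
        exact hcon e₃ r₃ (not_lt.mp h) e₁ e₂ A₃ (by rw [hD]; ring) hb₂'' hb₄''
      have m₁ := (val_four_mul_of_root_of_one_lt hW r₁ n₁).2 hvb₂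
      have m₂ := (val_four_mul_of_root_of_one_lt hW r₂ n₂).2 hvb₂
      have m₃ := (val_four_mul_of_root_of_one_lt hW r₃ n₃).2 hvb₂
      have hb₆v : v W.b₆ * v (4 : K) ^ 2 = 1 := by
        rw [hb₆, map_mul, Valuation.map_neg, map_mul, map_mul]
        calc v (4 : K) * (v e₁ * v e₂ * v e₃) * v (4 : K) ^ 2
            = (v (4 : K) * v e₁) * (v (4 : K) * v e₂) * (v (4 : K) * v e₃) := by
              rw [pow_two]
              simp only [mul_comm, mul_left_comm]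
          _ = 1 := by rw [m₁, m₂, m₃, one_mul, one_mul]
      have hlt : v W.b₆ * v (4 : K) ^ 2 < 1 := by
        calc v W.b₆ * v (4 : K) ^ 2 ≤ 1 * v (4 : K) ^ 2 :=
              mul_le_mul_left (val_b₆_le_one hW) _
          _ = v (4 : K) ^ 2 := one_mul _
          _ < 1 := pow_lt_one₀ zero_le hv4 two_ne_zero
      rw [hb₆v] at hlt
      exact lt_irrefl _ hlt
    obtain ⟨e, hroot, he, e', e'', hA, hDe, hbe₂, hbe₄⟩ := hex
    refine ⟨e, hroot, he, ?_⟩
    have hAle := val_nodeA_le_one h2 hW hroot he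
    by_contra hnot
    have hA1 : v (nodeA W e) = 1 := le_antisymm hAle (not_lt.mp hnot)
    -- `Δ = A² (c₄ - 16 A)`
    have hid : W.Δ = nodeA W e ^ 2 * (W.c₄ + -(16 * nodeA W e)) := by
      have hc : W.c₄ = W.b₂ ^ 2 - 12 * (2 * W.b₄) := by
        simp only [WeierstrassCurve.c₄]; ring
      rw [hDe, hc, hA, hbe₂, hbe₄]; ring
    have h16A : v (-(16 * nodeA W e)) < 1 := by
      rw [Valuation.map_neg, map_mul, hA1, mul_one]; exact hv16
    have : v W.Δ = 1 := by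
      rw [hid, map_mul, map_pow, hA1, one_pow, one_mul,
        Valuation.map_add_eq_of_lt_left _ (by rw [hc₄]; exact h16A), hc₄]
    rw [this] at hΔ
    exact lt_irrefl _ hΔ
  · -- residue characteristic `≠ 2`: all roots are integral
    have hv4 : v (4 : K) = 1 := by rw [h4, map_pow, h2v, one_pow]
    have hv16 : v (16 : K) = 1 := by rw [h16, map_pow, h2v, one_pow]
    have hprod : v (nodeA W e₁) * v (nodeA W e₂) * v (nodeA W e₃) = v W.Δ := by
      have : W.Δ = -(16 * (nodeA W e₁ * nodeA W e₂ * nodeA W e₃)) := by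
        rw [hD, A₁, A₂, A₃]; ring
      rw [this, Valuation.map_neg, map_mul, hv16, one_mul, map_mul, map_mul]
    by_contra hcon
    push Not at hcon
    have k₁ : 1 ≤ v (nodeA W e₁) := by
      by_contra h
      exact absurd (not_le.mp h) (not_lt.mpr (hcon e₁ r₁ (val_root_le_one hW hv4 r₁)))
    have k₂ : 1 ≤ v (nodeA W e₂) := by
      by_contra h
      exact absurd (not_le.mp h) (not_lt.mpr (hcon e₂ r₂ (val_root_le_one hW hv4 r₂)))
    have k₃ : 1 ≤ v (nodeA W e₃) := by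
      by_contra h
      exact absurd (not_le.mp h) (not_lt.mpr (hcon e₃ r₃ (val_root_le_one hW hv4 r₃)))
    have : 1 ≤ v W.Δ := by
      rw [← hprod]
      exact one_le_mul_of_one_le_of_one_le (one_le_mul_of_one_le_of_one_le k₁ k₂) k₃
    exact absurd hΔ (not_lt.mpr this)

/-- **Existence of a node model** at a multiplicative place of an algebraically closed valued
field of characteristic `≠ 2` (any residue characteristic). -/
theorem exists_nodeModel [IsAlgClosed K] (h2 : (2 : K) ≠ 0) (hW : IntegralCoeffs W v)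
    (hc₄ : v W.c₄ = 1) (hΔ : v W.Δ < 1) (hΔ0 : W.Δ ≠ 0) :
    ∃ M : NodeModel v W, v M.e ≤ 1 := by
  obtain ⟨e, hroot, he, hA⟩ := exists_root_near_node h2 hW hc₄ hΔ
  obtain ⟨s, hs⟩ := IsAlgClosed.exists_eq_mul_self (W.b₂ + 12 * e)
  have h2tors : 2 * (-(W.a₁ * e + W.a₃) / 2) + W.a₁ * e + W.a₃ = 0 := by
    field_simp; ring
  have hon : (-(W.a₁ * e + W.a₃) / 2) ^ 2 + W.a₁ * e * (-(W.a₁ * e + W.a₃) / 2)
      + W.a₃ * (-(W.a₁ * e + W.a₃) / 2) = e ^ 3 + W.a₂ * e ^ 2 + W.a₄ * e + W.a₆ := by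
    simp only [WeierstrassCurve.b₂, WeierstrassCurve.b₄, WeierstrassCurve.b₆] at hroot
    field_simp
    linear_combination -hroot
  have hsum : (-W.a₁ + s) / 2 + (-W.a₁ - s) / 2 = -W.a₁ := by field_simp; ring
  have hprod : (-W.a₁ + s) / 2 * ((-W.a₁ - s) / 2) = -(W.a₂ + 3 * e) := by
    simp only [WeierstrassCurve.b₂] at hs
    field_simp
    linear_combination hs
  obtain ⟨hDid, hcid⟩ := Δ_c₄_of_nodeData (a := nodeA W e) h2tors hon hsum hprod rfl
  have hdiff : (-W.a₁ + s) / 2 - (-W.a₁ - s) / 2 = s := by field_simp; ring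
  rw [hdiff] at hDid hcid
  have h48 : v (48 * nodeA W e) < 1 := by
    rw [map_mul]
    calc v (48 : K) * v (nodeA W e) ≤ 1 * v (nodeA W e) :=
          mul_le_mul_left (val_ofNat_le_one v 48) _
      _ = v (nodeA W e) := one_mul _
      _ < 1 := hA
  have hs4 : v s ^ 4 = 1 := by
    have : s ^ 4 = W.c₄ + 48 * nodeA W e := by rw [hcid]; ring
    rw [← map_pow, this, Valuation.map_add_eq_of_lt_left _ (by rw [hc₄]; exact h48), hc₄]
  have hs1 : v s = 1 := (pow_eq_one_iff_of_nonneg zero_le (by norm_num)).mp hs4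
  have hA0 : nodeA W e ≠ 0 := by
    intro h0
    rw [h0] at hDid
    exact hΔ0 (by rw [hDid]; ring)
  exact ⟨{ e := e
           f := -(W.a₁ * e + W.a₃) / 2
           γ₁ := (-W.a₁ + s) / 2
           γ₂ := (-W.a₁ - s) / 2
           a := nodeA W e
           h2tors := h2tors
           hon := hon
           hsum := hsum
           hprod := hprod
           ha_def := rfl
           hδ := by rw [hdiff]; exact hs1
           ha := hA
           ha0 := hA0 }, he⟩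

/-- `v Δ = v(a)²` for a node model. -/
theorem nodeModel_val_Δ (M : NodeModel v W) : v W.Δ = v M.a ^ 2 := by
  obtain ⟨hD, -⟩ := Δ_c₄_of_nodeData (W := W) M.h2tors M.hon M.hsum M.hprod M.ha_def
  have h64 : v (-(64 * M.a)) < 1 := by
    rw [Valuation.map_neg, map_mul]
    calc v (64 : K) * v M.a ≤ 1 * v M.a := mul_le_mul_left (val_ofNat_le_one v 64) _
      _ = v M.a := one_mul _
      _ < 1 := M.ha
  have h1 : v ((M.γ₁ - M.γ₂) ^ 4) = 1 := by rw [map_pow, M.hδ, one_pow]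
  rw [hD, map_mul, map_pow, sub_eq_add_neg,
    Valuation.map_add_eq_of_lt_left _ (by rw [h1]; exact h64), h1, mul_one]

end valuation

end Fermat.Agent.S15.H782
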