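import Fermat.Agent.S15.H242.Loc

/-!
# S15, node GEO, piece UVAL (helper782): the algebraic modular unit and its valuation

Route: `origin/helper902:coord/S15-PB-helper902.md`, section 0.  For a Weierstrass curve `W` and
a point `Q` of prime order `p` put

  `psiTwo W P = 2 y + a₁ x + a₃`   (`P = (x, y)`),
  `psiProd W Q p = ∏_{0 < k < p} psiTwo W (k • Q)`,
  `unitU W p Q = p ^ 12 * (psiProd W Q p) ^ 4 / Δ ^ (p - 1)`     (`= Δ(τ)/Δ(pτ)` at `(E, ⟨Q⟩)`).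

At a place `A` with `v_A(p) = 1` (no hypothesis on the reduction type, none on `v_A(2)`):

* `val_psiProd_eq_one` : `Q ∈ E⁰`, `p` odd  ⟹  `v_A(psiProd) = 1`;
* `val_psiProd_lt_one` : `Q ∉ E⁰`           ⟹  `v_A(psiProd) < 1`, and every factor is in `𝔪_A`;

and for `W : WeierstrassCurve ℤ`, `A ⊆ ℚ̄` over `ℓ ≠ p`, in the Prelude's vocabulary:

* `val_unitU_of_inZeroComponentAt`     : `v_A(unitU) * v_A(Δ) ^ (p - 1) = 1`;
* `val_unitU_of_not_inZeroComponentAt` : `v_A(unitU) * v_A(Δ) ^ (p - 1) < 1`;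
* `unitU_smul` (Galois equivariance), `unitU_rational` (`Q` rational ⟹ `unitU ∈ ℚ`).
-/

set_option autoImplicit false

namespace Fermat.Agent.S15.H782

open WeierstrassCurve WeierstrassCurve.Affine
open Fermat.Agent.S05.SameRed (IntegralCoeffs InKer)
open Fermat.Agent.Lib.Red.H290
open Fermat.Agent.S15.H242

section general

variable {K : Type*} [Field K] {κ : Type*} [Field κ]
variable {A : ValuationSubring K} {φ : A →+* κ} {W : Affine K} {Wκ : Affine κ}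

/-- `ψ₂(P) = 2y + a₁x + a₃` (the `y`-derivative of the Weierstrass polynomial at `P`), with the
convention `ψ₂(O) = 1`. -/
def psiTwo (W : Affine K) : W.Point → K
  | .zero => 1
  | .some x y _ => 2 * y + W.a₁ * x + W.a₃

@[simp] lemma psiTwo_zero : psiTwo W (0 : W.Point) = 1 := rfl

@[simp] lemma psiTwo_some {x y : K} (h : W.Nonsingular x y) :
    psiTwo W (Point.some x y h) = 2 * y + W.a₁ * x + W.a₃ := rfl

/-- The product of `ψ₂` over the nonzero multiples `k • Q`, `0 < k < p`. -/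
def psiProd [DecidableEq K] (W : Affine K) (Q : W.Point) (p : ℕ) : K :=
  ∏ k ∈ Finset.Ioo 0 p, psiTwo W (k • Q)

/-- `ψ₂` of an integral point is integral and reduces to `ψ₂` of the reduction. -/
lemma rd_psiTwoExpr (h : IsRedOf A φ W Wκ) {x y : K} (hx : x ∈ A) (hy : y ∈ A) :
    2 * y + W.a₁ * x + W.a₃ ∈ A ∧
    rd A φ (2 * y + W.a₁ * x + W.a₃) = 2 * rd A φ y + Wκ.a₁ * rd A φ x + Wκ.a₃ := by
  obtain ⟨c₁, c₂, c₃, c₄, c₆, e₁, e₂, e₃, e₄, e₆, f₁, f₂, f₃, f₄, f₆⟩ := h.exists_lift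
  lift x to A using hx
  lift y to A using hy
  simp only [← e₁, ← e₃, ← f₁, ← f₃]
  have : (2 * (y : K) + c₁ * x + c₃) = ((2 * y + c₁ * x + c₃ : A) : K) := by
    push_cast; rw [coe_two]
  rw [this, rd_coe, rd_coe, rd_coe]
  exact ⟨Subtype.mem _, by simp only [map_add, map_mul, map_ofNat]⟩

end general

section localFacts

variable {K : Type*} [Field K] [DecidableEq K] {κ : Type*} [Field κ] [DecidableEq κ]
variable {A : ValuationSubring K} {φ : A →+* κ} {W : Affine K} {Wκ : Affine κ}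

omit [DecidableEq K] [DecidableEq κ] in
/-- A point outside `E⁰` is an integral affine point whose reduction is singular. -/
lemma not_inE0_iff {x y : K} (hxy : W.Nonsingular x y) :
    ¬ InE0 A φ Wκ (Point.some x y hxy) ↔ x ∈ A ∧ ¬ Wκ.Nonsingular (rd A φ x) (rd A φ y) := by
  rw [inE0_some_iff, Classical.not_imp]

omit [DecidableEq κ] in
/-- **(b), one factor.**  If `P ∉ E⁰` then `ψ₂(P) ∈ 𝔪_A`: the `y`-derivative of the
Weierstrass polynomial vanishes at the singular point of the reduction. -/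
theorem val_psiTwo_lt_one_of_not_inE0 (h : IsRedOf A φ W Wκ) (hφ : KerMax A φ) {P : W.Point}
    (hP : ¬ InE0 A φ Wκ P) : A.valuation (psiTwo W P) < 1 := by
  rcases P with _ | ⟨x, y, hxy⟩
  · exact absurd inE0_zero hP
  · obtain ⟨hx, hsing⟩ := (not_inE0_iff hxy).mp hP
    have hy : y ∈ A := y_mem_of_x_mem h hxy.1 hx
    obtain ⟨hmem, hrd⟩ := rd_psiTwoExpr h hx hy
    have heq := rd_equation h hx hy hxy.1
    have h0 : 2 * rd A φ y + Wκ.a₁ * rd A φ x + Wκ.a₃ = 0 := by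
      by_contra hne
      exact hsing ((Affine.nonsingular_iff' _ _).mpr ⟨heq, Or.inr hne⟩)
    rw [psiTwo_some]
    exact (rd_eq_zero_iff hφ hmem).mp (hrd.trans h0)

/-- **(a), one factor.**  If `P ∈ E⁰` is integral and its reduction is not killed by `2`, then
`ψ₂(P)` is a unit of `A`. -/
theorem val_psiTwo_eq_one_of_inE0 (h : IsRedOf A φ W Wκ) (hφ : KerMax A φ) {x y : K}
    (hxy : W.Nonsingular x y) (hx : x ∈ A) (hP : InE0 A φ Wκ (Point.some x y hxy))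
    (h2 : 2 • red0 A φ Wκ (Point.some x y hxy) ≠ 0) :
    A.valuation (psiTwo W (Point.some x y hxy)) = 1 := by
  have hy : y ∈ A := y_mem_of_x_mem h hxy.1 hx
  obtain ⟨hmem, hrd⟩ := rd_psiTwoExpr h hx hy
  have hns := hP hx
  rw [psiTwo_some]
  refine (rd_ne_zero_iff hφ hmem).mp fun h0 => h2 ?_
  rw [red0_some_of_mem hxy hx hns, two_nsmul]
  refine Point.add_self_of_Y_eq ?_
  rw [hrd] at h0
  rw [Affine.negY]
  linear_combination h0

/-- If `Q ∉ E⁰` has order dividing the prime `p`, no multiple `k • Q` with `p ∤ k` lies in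
`E⁰` (`E⁰` is a subgroup). -/
theorem not_inE0_nsmul (h : IsRedOf A φ W Wκ) (hφ : KerMax A φ) {p : ℕ} (hp : p.Prime)
    {Q : W.Point} (hQ : ¬ InE0 A φ Wκ Q) (hpQ : p • Q = 0) {k : ℕ} (hk : ¬ p ∣ k) :
    ¬ InE0 A φ Wκ (k • Q) := by
  intro hkQ
  have hcop : Nat.Coprime k p := ((Nat.Prime.coprime_iff_not_dvd hp).mpr hk).symm
  obtain ⟨m, -, hm⟩ := Nat.exists_mul_mod_eq_one_of_coprime hcop hp.one_lt
  have hQ' : m • (k • Q) = Q := by
    rw [smul_smul, mul_comm, ← Nat.div_add_mod (k * m) p, hm, add_smul, mul_smul, one_smul]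
    rw [smul_comm, hpQ, smul_zero, zero_add]
  exact hQ (hQ' ▸ inE0_nsmul h hφ hkQ m)

/-- The multiples `k • Q`, `0 < k < p`, of a point of prime order `p` have order `p`. -/
lemma addOrderOf_nsmul_of_mem_Ioo {G : Type*} [AddGroup G] {p : ℕ} (hp : p.Prime) {Q : G}
    (hord : addOrderOf Q = p) {k : ℕ} (hk : k ∈ Finset.Ioo 0 p) : addOrderOf (k • Q) = p := by
  obtain ⟨hk0, hkp⟩ := Finset.mem_Ioo.mp hk
  have hnd : ¬ p ∣ k := Nat.not_dvd_of_pos_of_lt hk0 hkp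
  have hcop : Nat.Coprime (addOrderOf Q) k := by
    rw [hord]; exact (Nat.Prime.coprime_iff_not_dvd hp).mpr hnd
  rw [Nat.Coprime.addOrderOf_nsmul hcop, hord]

/-- **(b).**  If `Q ∉ E⁰` has prime order `p`, every factor `ψ₂(k • Q)`, `0 < k < p`, lies in
`𝔪_A`. -/
theorem val_psiTwo_nsmul_lt_one (h : IsRedOf A φ W Wκ) (hφ : KerMax A φ) {p : ℕ} (hp : p.Prime)
    {Q : W.Point} (hQ : ¬ InE0 A φ Wκ Q) (hord : addOrderOf Q = p) {k : ℕ}
    (hk : k ∈ Finset.Ioo 0 p) : A.valuation (psiTwo W (k • Q)) < 1 := by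
  obtain ⟨hk0, hkp⟩ := Finset.mem_Ioo.mp hk
  have hpQ : p • Q = 0 := by rw [← hord]; exact addOrderOf_nsmul_eq_zero Q
  exact val_psiTwo_lt_one_of_not_inE0 h hφ
    (not_inE0_nsmul h hφ hp hQ hpQ (Nat.not_dvd_of_pos_of_lt hk0 hkp))

/-- **(b), product.**  If `Q ∉ E⁰` has prime order `p` then `v_A(∏ ψ₂(k • Q)) < 1`. -/
theorem val_psiProd_lt_one (h : IsRedOf A φ W Wκ) (hφ : KerMax A φ) {p : ℕ} (hp : p.Prime)
    {Q : W.Point} (hQ : ¬ InE0 A φ Wκ Q) (hord : addOrderOf Q = p) :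
    A.valuation (psiProd W Q p) < 1 := by
  have h1 : (1 : ℕ) ∈ Finset.Ioo 0 p := Finset.mem_Ioo.mpr ⟨Nat.one_pos, hp.one_lt⟩
  rw [psiProd, ← Finset.mul_prod_erase _ _ h1, map_mul, map_prod]
  have hle : ∏ k ∈ (Finset.Ioo 0 p).erase 1, A.valuation (psiTwo W (k • Q)) ≤ 1 :=
    Finset.prod_le_one' fun k hk =>
      (val_psiTwo_nsmul_lt_one h hφ hp hQ hord (Finset.mem_of_mem_erase hk)).le
  calc A.valuation (psiTwo W (1 • Q)) * ∏ k ∈ (Finset.Ioo 0 p).erase 1,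
        A.valuation (psiTwo W (k • Q))
      ≤ A.valuation (psiTwo W (1 • Q)) * 1 := mul_le_mul_right hle _
    _ = A.valuation (psiTwo W (1 • Q)) := mul_one _
    _ < 1 := val_psiTwo_nsmul_lt_one h hφ hp hQ hord h1

/-- **(a).**  If `Q ∈ E⁰` has odd prime order `p`, a unit of `A`, then every factor
`ψ₂(k • Q)`, `0 < k < p`, is a unit of `A`. -/
theorem val_psiTwo_nsmul_eq_one (h : IsRedOf A φ W Wκ) (hφ : KerMax A φ) {p : ℕ} (hp : p.Prime)
    (hp2 : p ≠ 2) (hv : A.valuation (p : K) = 1) {Q : W.Point} (hQ : InE0 A φ Wκ Q)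
    (hord : addOrderOf Q = p) {k : ℕ} (hk : k ∈ Finset.Ioo 0 p) :
    A.valuation (psiTwo W (k • Q)) = 1 := by
  have hkQ : InE0 A φ Wκ (k • Q) := inE0_nsmul h hφ hQ k
  have hordk : addOrderOf (k • Q) = p := addOrderOf_nsmul_of_mem_Ioo hp hord hk
  have hred := addOrderOf_red0 h hφ hp hv hkQ hordk
  have h2 : 2 • red0 A φ Wκ (k • Q) ≠ 0 := fun h0 => by
    have hdvd := addOrderOf_dvd_of_nsmul_eq_zero h0
    rw [hred] at hdvd
    exact hp2 ((Nat.prime_dvd_prime_iff_eq hp Nat.prime_two).mp hdvd)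
  generalize k • Q = P at hkQ hred h2
  rcases P with _ | ⟨x, y, hxy⟩
  · exact absurd (smul_zero 2) h2
  · have hx : x ∈ A := by
      by_contra hx
      rw [red0_some_of_not_mem hxy hx, smul_zero] at h2
      exact h2 rfl
    exact val_psiTwo_eq_one_of_inE0 h hφ hxy hx hkQ h2

/-- **(a), product.**  If `Q ∈ E⁰` has odd prime order `p`, a unit of `A`, then
`v_A(∏ ψ₂(k • Q)) = 1`. -/
theorem val_psiProd_eq_one (h : IsRedOf A φ W Wκ) (hφ : KerMax A φ) {p : ℕ} (hp : p.Prime)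
    (hp2 : p ≠ 2) (hv : A.valuation (p : K) = 1) {Q : W.Point} (hQ : InE0 A φ Wκ Q)
    (hord : addOrderOf Q = p) : A.valuation (psiProd W Q p) = 1 := by
  rw [psiProd, map_prod]
  exact Finset.prod_eq_one fun k hk => val_psiTwo_nsmul_eq_one h hφ hp hp2 hv hQ hord hk

end localFacts

/-! ### The Prelude's vocabulary: `W : WeierstrassCurve ℤ`, places of `ℚ̄` -/

section global

variable (W : WeierstrassCurve ℤ)

/-- The points of `W` over `ℚ̄` (the type of `Q` in the frozen statement S15). -/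
abbrev PtsBar : Type := ((W.map (Int.castRingHom ℚ))⁄(AlgebraicClosure ℚ)).Point

/-- The algebraic modular unit `U(W, Q) = p¹² ∏_{0<k<p} ψ₂(kQ)⁴ / Δ^{p-1}`
(`= Δ(τ)/Δ(pτ)` at the moduli point of `(E, ⟨Q⟩)`). -/
noncomputable def unitU (p : ℕ) (Q : PtsBar W) : AlgebraicClosure ℚ :=
  (p : AlgebraicClosure ℚ) ^ 12 * psiProd _ Q p ^ 4 / ((W.Δ : ℤ) : AlgebraicClosure ℚ) ^ (p - 1)

lemma unitU_mul_Δ_pow (hΔ : W.Δ ≠ 0) (p : ℕ) (Q : PtsBar W) :
    unitU W p Q * ((W.Δ : ℤ) : AlgebraicClosure ℚ) ^ (p - 1) =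
      (p : AlgebraicClosure ℚ) ^ 12 * psiProd _ Q p ^ 4 := by
  have h0 : ((W.Δ : ℤ) : AlgebraicClosure ℚ) ^ (p - 1) ≠ 0 :=
    pow_ne_zero _ (Int.cast_ne_zero.mpr hΔ)
  rw [unitU, div_mul_cancel₀ _ h0]

variable (A : ValuationSubring (AlgebraicClosure ℚ))

/-- The converse of `H242.inE0_of_inZeroComponentAt`. -/
lemma inZeroComponentAt_of_inE0 {Q : PtsBar W}
    (hQ : InE0 A (IsLocalRing.residue A) (W⁄(IsLocalRing.ResidueField A)) Q) :
    W.InZeroComponentAt A Q := by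
  rcases Q with _ | ⟨x, y, h⟩
  · exact Or.inl rfl
  · refine Or.inr ⟨x, y, h, rfl, ?_⟩
    by_cases hx : x ∈ A
    · have hy : y ∈ A := y_mem_of_x_mem (isRedOf_int A W (IsLocalRing.residue A)) h.1 hx
      have hns := hQ hx
      rw [rd_of_mem hx, rd_of_mem hy] at hns
      exact Or.inr ⟨hx, hy, hns⟩
    · exact Or.inl hx

lemma inZeroComponentAt_iff_inE0 {Q : PtsBar W} :
    W.InZeroComponentAt A Q ↔
      InE0 A (IsLocalRing.residue A) (W⁄(IsLocalRing.ResidueField A)) Q :=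
  ⟨inE0_of_inZeroComponentAt W A, inZeroComponentAt_of_inE0 W A⟩

variable {W A}

/-- **UVAL (a).**  `Q ∈ E⁰` at `A ∣ ℓ ≠ p`, `Q` of odd prime order `p`:
`v_A(U(W,Q)) · v_A(Δ)^{p-1} = 1`, i.e. `ord_A U = -(p-1) ord_A Δ`. -/
theorem val_unitU_of_inZeroComponentAt {p : ℕ} (hp : p.Prime) (hp2 : p ≠ 2) (hΔ : W.Δ ≠ 0)
    {Q : PtsBar W} (hord : addOrderOf Q = p) {ℓ : ℕ} (hℓ : ℓ.Prime) (hℓp : ℓ ≠ p)
    (hA : A.LiesOverPrime ℓ) (hQ0 : W.InZeroComponentAt A Q) :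
    A.valuation (unitU W p Q) * A.valuation ((W.Δ : ℤ) : AlgebraicClosure ℚ) ^ (p - 1) = 1 := by
  classical
  have hv : A.valuation ((p : ℕ) : AlgebraicClosure ℚ) = 1 := val_natCast_eq_one A hA hℓ hp hℓp
  have h1 := val_psiProd_eq_one (isRedOf_int A W (IsLocalRing.residue A)) (kerMax_residue A)
    hp hp2 hv (inE0_of_inZeroComponentAt W A hQ0) hord
  rw [← map_pow, ← map_mul, unitU_mul_Δ_pow W hΔ, map_mul, map_pow, map_pow, hv, h1, one_pow,
    one_pow, one_mul]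

/-- **UVAL (b).**  `Q ∉ E⁰` at `A ∣ ℓ ≠ p`, `Q` of prime order `p`:
`v_A(U(W,Q)) · v_A(Δ)^{p-1} < 1`, i.e. `ord_A U > -(p-1) ord_A Δ`. -/
theorem val_unitU_of_not_inZeroComponentAt {p : ℕ} (hp : p.Prime) (hΔ : W.Δ ≠ 0)
    {Q : PtsBar W} (hord : addOrderOf Q = p) {ℓ : ℕ} (hℓ : ℓ.Prime) (hℓp : ℓ ≠ p)
    (hA : A.LiesOverPrime ℓ) (hQ0 : ¬ W.InZeroComponentAt A Q) :
    A.valuation (unitU W p Q) * A.valuation ((W.Δ : ℤ) : AlgebraicClosure ℚ) ^ (p - 1) < 1 := by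
  classical
  have hv : A.valuation ((p : ℕ) : AlgebraicClosure ℚ) = 1 := val_natCast_eq_one A hA hℓ hp hℓp
  have h1 := val_psiProd_lt_one (isRedOf_int A W (IsLocalRing.residue A)) (kerMax_residue A)
    hp (fun h => hQ0 (inZeroComponentAt_of_inE0 W A h)) hord
  rw [← map_pow, ← map_mul, unitU_mul_Δ_pow W hΔ, map_mul, map_pow, map_pow, hv, one_pow,
    one_mul]
  exact pow_lt_one₀ zero_le h1 (by norm_num)

/-! ### Comparison with the `j`-invariant `c₄³ / Δ` -/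

/-- At a multiplicative prime, `v_A(j) = v_A(Δ)⁻¹ > 1`. -/
theorem val_j_of_mult {ℓ : ℕ} (hℓ : ℓ.Prime) (hℓc₄ : ¬ (ℓ : ℤ) ∣ W.c₄)
    (hA : A.LiesOverPrime ℓ) :
    A.valuation (((W.c₄ : ℤ) : AlgebraicClosure ℚ) ^ 3 / ((W.Δ : ℤ) : AlgebraicClosure ℚ)) =
      (A.valuation ((W.Δ : ℤ) : AlgebraicClosure ℚ))⁻¹ := by
  rw [map_div₀, map_pow, val_intCast_eq_one A hA hℓ hℓc₄, one_pow, one_div]

theorem val_Δ_lt_one {ℓ : ℕ} (hℓΔ : (ℓ : ℤ) ∣ W.Δ) (hA : A.LiesOverPrime ℓ) :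
    A.valuation ((W.Δ : ℤ) : AlgebraicClosure ℚ) < 1 := by
  obtain ⟨c, hc⟩ := hℓΔ
  have hℓv : A.valuation ((ℓ : ℕ) : AlgebraicClosure ℚ) < 1 := (A.mem_nonunits_iff).mp hA
  rw [hc]
  push_cast
  rw [map_mul]
  calc A.valuation ((ℓ : ℕ) : AlgebraicClosure ℚ) * A.valuation ((c : ℤ) : AlgebraicClosure ℚ)
      ≤ A.valuation ((ℓ : ℕ) : AlgebraicClosure ℚ) * 1 :=
        mul_le_mul_right (val_intCast_le_one A c) _
    _ < 1 := by rwa [mul_one]

/-- **UVAL (a), `j`-form.**  `Q ∈ E⁰` ⟹ `v_A(U) = v_A(j)^{p-1}` (`> 1`: `U` is the root of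
negative order of the modular equation). -/
theorem val_unitU_eq_val_j_pow {p : ℕ} (hp : p.Prime) (hp2 : p ≠ 2) (hΔ : W.Δ ≠ 0)
    {Q : PtsBar W} (hord : addOrderOf Q = p) {ℓ : ℕ} (hℓ : ℓ.Prime) (hℓp : ℓ ≠ p)
    (hℓc₄ : ¬ (ℓ : ℤ) ∣ W.c₄) (hA : A.LiesOverPrime ℓ) (hQ0 : W.InZeroComponentAt A Q) :
    A.valuation (unitU W p Q) =
      A.valuation (((W.c₄ : ℤ) : AlgebraicClosure ℚ) ^ 3 /
        ((W.Δ : ℤ) : AlgebraicClosure ℚ)) ^ (p - 1) := by
  have h := val_unitU_of_inZeroComponentAt hp hp2 hΔ hord hℓ hℓp hA hQ0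
  have h0 : A.valuation ((W.Δ : ℤ) : AlgebraicClosure ℚ) ^ (p - 1) ≠ 0 :=
    pow_ne_zero _ ((Valuation.ne_zero_iff _).mpr (Int.cast_ne_zero.mpr hΔ))
  rw [val_j_of_mult hℓ hℓc₄ hA, inv_pow]
  exact eq_inv_of_mul_eq_one_left h

/-- **UVAL (b), `j`-form.**  `Q ∉ E⁰` ⟹ `v_A(U) < v_A(j)^{p-1}` (`U` is NOT the root of
order `(p-1) ord_A j` of the modular equation). -/
theorem val_unitU_lt_val_j_pow {p : ℕ} (hp : p.Prime) (hΔ : W.Δ ≠ 0)
    {Q : PtsBar W} (hord : addOrderOf Q = p) {ℓ : ℕ} (hℓ : ℓ.Prime) (hℓp : ℓ ≠ p)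
    (hℓc₄ : ¬ (ℓ : ℤ) ∣ W.c₄) (hA : A.LiesOverPrime ℓ) (hQ0 : ¬ W.InZeroComponentAt A Q) :
    A.valuation (unitU W p Q) <
      A.valuation (((W.c₄ : ℤ) : AlgebraicClosure ℚ) ^ 3 /
        ((W.Δ : ℤ) : AlgebraicClosure ℚ)) ^ (p - 1) := by
  have h := val_unitU_of_not_inZeroComponentAt hp hΔ hord hℓ hℓp hA hQ0
  have h0 : 0 < A.valuation ((W.Δ : ℤ) : AlgebraicClosure ℚ) ^ (p - 1) :=
    pow_pos ((Valuation.pos_iff _).mpr (Int.cast_ne_zero.mpr hΔ)) _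
  rw [val_j_of_mult hℓ hℓc₄ hA, inv_pow, ← one_mul (_⁻¹)]
  exact (lt_mul_inv_iff₀ h0).mpr h

/-! ### Galois equivariance and rationality -/

lemma psiTwo_smul (σ : AlgebraicClosure ℚ ≃ₐ[ℚ] AlgebraicClosure ℚ) (P : PtsBar W) :
    psiTwo _ (σ • P) = σ (psiTwo _ P) := by
  rcases P with _ | ⟨x, y, h⟩
  · exact (map_one σ).symm
  · rw [Point.algEquiv_smul_def, Point.map_some, psiTwo_some, psiTwo_some]
    simp only [map_add, map_mul, map_ofNat, AlgEquiv.coe_toAlgHom]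
    have e₁ : σ ((W.map (Int.castRingHom ℚ))⁄(AlgebraicClosure ℚ)).a₁ =
        ((W.map (Int.castRingHom ℚ))⁄(AlgebraicClosure ℚ)).a₁ := σ.commutes _
    have e₃ : σ ((W.map (Int.castRingHom ℚ))⁄(AlgebraicClosure ℚ)).a₃ =
        ((W.map (Int.castRingHom ℚ))⁄(AlgebraicClosure ℚ)).a₃ := σ.commutes _
    rw [e₁, e₃]

lemma psiProd_smul (σ : AlgebraicClosure ℚ ≃ₐ[ℚ] AlgebraicClosure ℚ) (Q : PtsBar W) (p : ℕ) :
    psiProd _ (σ • Q) p = σ (psiProd _ Q p) := by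
  rw [psiProd, psiProd, map_prod]
  refine Finset.prod_congr rfl fun k _ => ?_
  rw [← psiTwo_smul, smul_comm]

/-- Galois equivariance of the algebraic modular unit. -/
theorem unitU_smul (σ : AlgebraicClosure ℚ ≃ₐ[ℚ] AlgebraicClosure ℚ) (Q : PtsBar W) (p : ℕ) :
    unitU W p (σ • Q) = σ (unitU W p Q) := by
  rw [unitU, unitU, psiProd_smul, map_div₀, map_mul, map_pow, map_pow, map_pow, map_natCast,
    map_intCast]

/-- For a rational point `Q`, `U(W, Q)` is a rational number. -/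
theorem unitU_rational {Q : PtsBar W}
    (hQfix : ∀ σ : AlgebraicClosure ℚ ≃ₐ[ℚ] AlgebraicClosure ℚ, σ • Q = Q) (p : ℕ) :
    unitU W p Q ∈ Set.range (algebraMap ℚ (AlgebraicClosure ℚ)) := by
  have := isGalois_Qbar_h242
  refine (InfiniteGalois.mem_range_algebraMap_iff_fixed _).mpr fun σ => ?_
  rw [← unitU_smul, hQfix]

end global

end Fermat.Agent.S15.H782
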