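import Fermat.Agent.S15.H782.UVal
import Fermat.Agent.S13.H365.NodeKer

/-!
# S15, node GEO, piece UVAL (b)-EXACT (helper782)

For a point `Q ∉ E⁰` of odd prime order `p = 2 m + 1` on a curve with a node (`NodeModel`, any
residue characteristic):

  `v (∏_{0<k<p} ψ₂(k • Q)) ^ p = v(a) ^ (2 m (m + 1))`       (`v(a)² = v(Δ)`),

i.e. `ord (∏ ψ₂(kQ)⁴) = (p² - 1)/p · ord Δ`, hence `ord U(W, Q) = (p - 1)/p · ord Δ > 0`.

Proof: `v ψ₂(P) = v (x(P) - e)` near the node; the values `g_k = v (x(kQ) - e)`, `0 < k ≤ m`,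
satisfy `g_k ^ p = v(a) ^ (2 j_k)` with `1 ≤ j_k ≤ m` (`torsion_near_node`), and `k ↦ j_k` is
injective because the component map is injective on `⟨Q⟩`.  No Tate curve, no Newton polygon of
the modular equation.
-/

set_option autoImplicit false

namespace Fermat.Agent.S15.H782

open WeierstrassCurve WeierstrassCurve.Affine
open Fermat.Agent.S05.Comp (cls CompGroup)
open Fermat.Agent.S13.H365

section combinatorics

variable {Γ₀ : Type*} [LinearOrderedCommGroupWithZero Γ₀]

lemma sum_two_mul_succ (m : ℕ) : ∑ i ∈ Finset.range m, 2 * (i + 1) = m * (m + 1) := by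
  induction m with
  | zero => simp
  | succ n ih => rw [Finset.sum_range_succ, ih]; ring

/-- **Combinatorial core.**  If `g 0, …, g (m-1)` are pairwise distinct elements strictly between
`α` and `1` whose `(2m+1)`-st powers are even powers of `α`, then
`(∏ g i) ^ (2m+1) = α ^ (m (m+1))`. -/
theorem prod_pow_eq_of_injOn {α : Γ₀} (hα0 : 0 < α) (hα1 : α < 1) (m : ℕ) (g : ℕ → Γ₀)
    (hg : ∀ i < m, α < g i ∧ g i < 1 ∧ ∃ j : ℕ, g i ^ (2 * m + 1) = α ^ (2 * j))
    (hinj : ∀ i < m, ∀ i' < m, g i = g i' → i = i') :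
    (∏ i ∈ Finset.range m, g i) ^ (2 * m + 1) = α ^ (m * (m + 1)) := by
  classical
  choose! J hJ using fun i (hi : i < m) => (hg i hi).2.2
  have hJpos : ∀ i < m, 0 < J i := by
    intro i hi
    rcases Nat.eq_zero_or_pos (J i) with h0 | h0
    · exfalso
      have h1 : g i ^ (2 * m + 1) < 1 :=
        pow_lt_one₀ zero_le (hg i hi).2.1 (Nat.succ_ne_zero _)
      rw [hJ i hi, h0, mul_zero, pow_zero] at h1
      exact lt_irrefl _ h1
    · exact h0
  have hJle : ∀ i < m, J i ≤ m := by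
    intro i hi
    have h1 : α ^ (2 * m + 1) < g i ^ (2 * m + 1) :=
      pow_lt_pow_left₀ (hg i hi).1 hα0.le (Nat.succ_ne_zero _)
    rw [hJ i hi] at h1
    have := (pow_lt_pow_iff_right_of_lt_one₀ hα0 hα1).mp h1
    omega
  have hJinj : ∀ i < m, ∀ i' < m, J i = J i' → i = i' := by
    intro i hi i' hi' h
    refine hinj i hi i' hi' ?_
    have h1 : g i ^ (2 * m + 1) = g i' ^ (2 * m + 1) := by rw [hJ i hi, hJ i' hi', h]
    exact (pow_left_inj₀ zero_le zero_le (Nat.succ_ne_zero _)).mp h1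
  have himg : (Finset.range m).image (fun i => J i - 1) = Finset.range m := by
    refine Finset.eq_of_subset_of_card_le ?_ ?_
    · intro j hj
      obtain ⟨i, hi, rfl⟩ := Finset.mem_image.mp hj
      have hi' := Finset.mem_range.mp hi
      have := hJpos i hi'
      have := hJle i hi'
      exact Finset.mem_range.mpr (by omega)
    · rw [Finset.card_image_of_injOn]
      intro i hi i' hi' h
      have hi1 := Finset.mem_range.mp hi
      have hi1' := Finset.mem_range.mp hi'
      have := hJpos i hi1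
      have := hJpos i' hi1'
      exact hJinj i hi1 i' hi1' (by simp only at h; omega)
  rw [← Finset.prod_pow]
  calc ∏ i ∈ Finset.range m, g i ^ (2 * m + 1)
      = ∏ i ∈ Finset.range m, α ^ (2 * ((J i - 1) + 1)) := by
        refine Finset.prod_congr rfl fun i hi => ?_
        have hi' := Finset.mem_range.mp hi
        have := hJpos i hi'
        rw [hJ i hi', Nat.sub_add_cancel this]
    _ = ∏ j ∈ (Finset.range m).image (fun i => J i - 1), α ^ (2 * (j + 1)) := by
        rw [Finset.prod_image]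
        intro i hi i' hi' h
        have hi1 := Finset.mem_range.mp hi
        have hi1' := Finset.mem_range.mp hi'
        have := hJpos i hi1
        have := hJpos i' hi1'
        exact hJinj i hi1 i' hi1' (by simp only at h; omega)
    _ = ∏ j ∈ Finset.range m, α ^ (2 * (j + 1)) := by rw [himg]
    _ = α ^ (m * (m + 1)) := by rw [Finset.prod_pow_eq_pow_sum, sum_two_mul_succ]

end combinatorics

section node

variable {K : Type*} [Field K] {Γ₀ : Type*} [LinearOrderedCommGroupWithZero Γ₀]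
  {v : Valuation K Γ₀} {W : Affine K}

/-- `v (x(P) - e)`: the distance of `P` from the node (`1` for `P = O`). -/
def xiVal (M : NodeModel v W) : W.Point → Γ₀
  | .zero => 1
  | .some x _ _ => v (x - M.e)

@[simp] lemma xiVal_zero (M : NodeModel v W) : xiVal M (0 : W.Point) = 1 := rfl

@[simp] lemma xiVal_some (M : NodeModel v W) {x y : K} (h : W.Nonsingular x y) :
    xiVal M (Point.some x y h) = v (x - M.e) := rfl

lemma xiVal_neg (M : NodeModel v W) (P : W.Point) : xiVal M (-P) = xiVal M P := by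
  rcases P with _ | ⟨x, y, h⟩
  · rfl
  · rw [Point.neg_some]; rfl

lemma inE0_iff_xiVal (M : NodeModel v W) (P : W.Point) : M.InE0 P ↔ 1 ≤ xiVal M P := by
  rcases P with _ | ⟨x, y, h⟩
  · exact ⟨fun _ => le_refl _, fun _ => trivial⟩
  · exact Iff.rfl

/-- Near the node (but not too near), `v ψ₂(P) = v (x(P) - e)`. -/
lemma val_psiTwo_eq_xiVal (M : NodeModel v W) {P : W.Point} (hlo : v M.a < xiVal M P)
    (hhi : xiVal M P < 1) : v (psiTwo W P) = xiVal M P := by
  rcases P with _ | ⟨x, y, h⟩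
  · exact absurd hhi (lt_irrefl _)
  · rw [xiVal_some] at hlo hhi
    rw [psiTwo_some, xiVal_some]
    have hpos : 0 < v (x - M.e) := lt_of_le_of_lt zero_le hlo
    have h4 : v (4 : K) ≤ 1 := val_four_le_one
    have hδ2 : v ((M.γ₁ - M.γ₂) ^ 2) = 1 := by rw [map_pow, M.hδ, one_pow]
    have h4ξ : v (4 * (x - M.e)) < 1 := by
      rw [map_mul]
      calc v 4 * v (x - M.e) ≤ 1 * v (x - M.e) := mul_le_mul_left h4 _
        _ = v (x - M.e) := one_mul _
        _ < 1 := hhi
    have hunit : v ((M.γ₁ - M.γ₂) ^ 2 + 4 * (x - M.e)) = 1 := by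
      rw [Valuation.map_add_eq_of_lt_left _ (by rw [hδ2]; exact h4ξ), hδ2]
    have hsmall : v (4 * M.a * (x - M.e)) < v (x - M.e) ^ 2 := by
      rw [map_mul, map_mul, pow_two]
      calc v 4 * v M.a * v (x - M.e) ≤ 1 * v M.a * v (x - M.e) :=
            mul_le_mul_left (mul_le_mul_left h4 _) _
        _ = v M.a * v (x - M.e) := by rw [one_mul]
        _ < v (x - M.e) * v (x - M.e) := mul_lt_mul_of_pos_right hlo hpos
    have hid : (2 * y + W.a₁ * x + W.a₃) ^ 2 =
        (x - M.e) ^ 2 * ((M.γ₁ - M.γ₂) ^ 2 + 4 * (x - M.e)) + 4 * M.a * (x - M.e) := by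
      rw [M.ns_id₂ h.1]; ring
    have hbig : v ((x - M.e) ^ 2 * ((M.γ₁ - M.γ₂) ^ 2 + 4 * (x - M.e))) = v (x - M.e) ^ 2 := by
      rw [map_mul, map_pow, hunit, mul_one]
    have hsq : v (2 * y + W.a₁ * x + W.a₃) ^ 2 = v (x - M.e) ^ 2 := by
      rw [← map_pow, hid, Valuation.map_add_eq_of_lt_left _ (by rw [hbig]; exact hsmall), hbig]
    exact (pow_left_inj₀ zero_le zero_le two_ne_zero).mp hsq

/-- Near the node the component of `P` is `cls (v (x(P) - e))` or its inverse. -/
lemma comp_eq_cls_or (M : NodeModel v W) {P : W.Point} (hlo : v M.a < xiVal M P)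
    (hhi : xiVal M P < 1) :
    M.comp P = cls v M.a (xiVal M P) ∨ M.comp P = (cls v M.a (xiVal M P))⁻¹ := by
  rcases P with _ | ⟨x, y, h⟩
  · exact absurd hhi (lt_irrefl _)
  · rw [xiVal_some] at hlo hhi
    rw [xiVal_some, M.comp_some]
    rcases compN_cases M.hδ M.ha ((M.equation_iff x y).mp h.1) with ⟨hZ, -⟩ | ⟨hM, -⟩ |
      ⟨-, -, -, e⟩ | ⟨-, -, -, e⟩
    · exact absurd hZ (not_le.mpr hhi)
    · exact absurd hM (not_le.mpr hlo)
    · exact Or.inl e
    · exact Or.inr e

variable [DecidableEq K]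

/-- An odd-torsion point outside `E⁰` is near the node, strictly between `v a` and `1`, and the
`n`-th power of its distance is an even power of `v a`. -/
lemma xiVal_mid (M : NodeModel v W) {n : ℕ} (hn : Odd n) {P : W.Point} (hP : n • P = 0)
    (hE0 : ¬ M.InE0 P) :
    v M.a < xiVal M P ∧ xiVal M P < 1 ∧ ∃ j : ℕ, xiVal M P ^ n = v M.a ^ (2 * j) := by
  rcases P with _ | ⟨x, y, h⟩
  · exact absurd trivial hE0
  · have hhi : v (x - M.e) < 1 := not_le.mp hE0
    obtain ⟨hlo, j, hj⟩ := M.torsion_near_node hn h hP hhi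
    exact ⟨hlo, hhi, j, hj⟩

end node

section main

variable {K : Type*} [Field K] [DecidableEq K] {Γ₀ : Type*} [LinearOrderedCommGroupWithZero Γ₀]
  {v : Valuation K Γ₀} {W : Affine K}

lemma prod_Ioo_zero_succ {M : Type*} [CommMonoid M] (f : ℕ → M) (n : ℕ) :
    ∏ k ∈ Finset.Ioo 0 (n + 1), f k = ∏ i ∈ Finset.range n, f (i + 1) := by
  refine Finset.prod_nbij' (fun k => k - 1) (fun i => i + 1) ?_ ?_ ?_ ?_ ?_
  · intro k hk
    have := Finset.mem_Ioo.mp hk
    exact Finset.mem_range.mpr (by omega)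
  · intro i hi
    have := Finset.mem_range.mp hi
    exact Finset.mem_Ioo.mpr (by omega)
  · intro k hk
    have := Finset.mem_Ioo.mp hk
    show k - 1 + 1 = k
    omega
  · intro i _
    show i + 1 - 1 = i
    omega
  · intro k hk
    have := Finset.mem_Ioo.mp hk
    show f k = f (k - 1 + 1)
    rw [Nat.sub_add_cancel (by omega)]

/-- A product over `range (m + m)` of a function symmetric under `i ↦ 2m - 1 - i` is a square. -/
lemma prod_range_add_self_of_symm {M : Type*} [CommMonoid M] (g : ℕ → M) (m : ℕ)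
    (hsymm : ∀ i < m, g (m + (m - 1 - i)) = g i) :
    ∏ i ∈ Finset.range (m + m), g i = (∏ i ∈ Finset.range m, g i) ^ 2 := by
  rw [Finset.prod_range_add, pow_two]
  congr 1
  rw [← Finset.prod_range_reflect]
  exact Finset.prod_congr rfl fun i hi => hsymm i (Finset.mem_range.mp hi)

/-- **UVAL (b)-EXACT, abstract form.**  For `Q ∉ E⁰` of odd prime order `p = 2m + 1` on a curve
with a node: `v (∏_{0<k<p} ψ₂(kQ)) ^ p = v(a) ^ (2 m (m+1))`. -/
theorem val_psiProd_pow_of_not_inE0 (M : NodeModel v W) {m : ℕ} (hp : (2 * m + 1).Prime)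
    {Q : W.Point} (hord : addOrderOf Q = 2 * m + 1) (hQ : ¬ M.InE0 Q) :
    v (psiProd W Q (2 * m + 1)) ^ (2 * m + 1) = v M.a ^ (2 * (m * (m + 1))) := by
  have : Fact (2 * m + 1).Prime := ⟨hp⟩
  have hα0 : 0 < v M.a := (Valuation.pos_iff v).mpr M.ha0
  have hodd : Odd (2 * m + 1) := ⟨m, rfl⟩
  have hpQ : (2 * m + 1) • Q = 0 := by rw [← hord]; exact addOrderOf_nsmul_eq_zero Q
  -- the component of `Q` has order `p`
  have hc1 : M.comp Q ≠ 1 := fun h => hQ ((M.comp_eq_one_iff Q).mp h)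
  have hcp : M.comp Q ^ (2 * m + 1) = 1 := by rw [← M.comp_nsmul, hpQ, NodeModel.comp_zero]
  have hco : orderOf (M.comp Q) = 2 * m + 1 := orderOf_eq_prime hcp hc1
  have hdvd : ∀ k : ℕ, M.comp Q ^ k = 1 → (2 * m + 1) ∣ k := fun k hk => by
    rw [← hco]; exact orderOf_dvd_of_pow_eq_one hk
  -- the multiples of `Q`
  have hE0 : ∀ i < 2 * m, ¬ M.InE0 ((i + 1) • Q) := by
    intro i hi h
    have := hdvd (i + 1) (by rw [← M.comp_nsmul]; exact (M.comp_eq_one_iff _).mpr h)
    have := Nat.le_of_dvd (Nat.succ_pos i) this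
    omega
  have hmid : ∀ i < 2 * m, v M.a < xiVal M ((i + 1) • Q) ∧ xiVal M ((i + 1) • Q) < 1 ∧
      ∃ j : ℕ, xiVal M ((i + 1) • Q) ^ (2 * m + 1) = v M.a ^ (2 * j) := fun i hi =>
    xiVal_mid M hodd (by rw [smul_comm, hpQ, smul_zero]) (hE0 i hi)
  -- symmetry
  have hsymm : ∀ i < m, xiVal M ((m + (m - 1 - i) + 1) • Q) = xiVal M ((i + 1) • Q) := by
    intro i hi
    rw [← xiVal_neg M ((i + 1) • Q)]
    congr 1
    rw [eq_neg_iff_add_eq_zero, ← add_smul]
    have : m + (m - 1 - i) + 1 + (i + 1) = 2 * m + 1 := by omega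
    rw [this, hpQ]
  -- injectivity
  have hinj : ∀ i < m, ∀ i' < m,
      xiVal M ((i + 1) • Q) = xiVal M ((i' + 1) • Q) → i = i' := by
    intro i hi i' hi' h
    have h1 := comp_eq_cls_or M (hmid i (by omega)).1 (hmid i (by omega)).2.1
    have h2 := comp_eq_cls_or M (hmid i' (by omega)).1 (hmid i' (by omega)).2.1
    rw [M.comp_nsmul] at h1 h2
    rw [← h] at h2
    have key : M.comp Q ^ (i + 1) = M.comp Q ^ (i' + 1) ∨
        M.comp Q ^ (i + 1) * M.comp Q ^ (i' + 1) = 1 := by
      rcases h1 with h1 | h1 <;> rcases h2 with h2 | h2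
      · exact Or.inl (h1.trans h2.symm)
      · exact Or.inr (by rw [h1, h2, mul_inv_cancel])
      · exact Or.inr (by rw [h1, h2, inv_mul_cancel])
      · exact Or.inl (h1.trans h2.symm)
    rcases key with key | key
    · have hmod := (pow_eq_pow_iff_modEq).mp key
      rw [hco] at hmod
      have := Nat.ModEq.eq_of_lt_of_lt hmod (by omega) (by omega)
      omega
    · rw [← pow_add] at key
      have := Nat.le_of_dvd (by omega) (hdvd _ key)
      omega
  have core := prod_pow_eq_of_injOn hα0 M.ha m (fun i => xiVal M ((i + 1) • Q))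
    (fun i hi => hmid i (by omega)) hinj
  -- assemble
  have hval : v (psiProd W Q (2 * m + 1)) =
      (∏ i ∈ Finset.range m, xiVal M ((i + 1) • Q)) ^ 2 := by
    rw [psiProd, prod_Ioo_zero_succ, map_prod, two_mul,
      ← prod_range_add_self_of_symm (fun i => xiVal M ((i + 1) • Q)) m hsymm]
    refine Finset.prod_congr rfl fun i hi => ?_
    have hi' : i < 2 * m := by have := Finset.mem_range.mp hi; omega
    exact val_psiTwo_eq_xiVal M (hmid i hi').1 (hmid i hi').2.1
  rw [hval, ← pow_mul, mul_comm 2, pow_mul, core, ← pow_mul, mul_comm]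

end main

end Fermat.Agent.S15.H782
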